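/-
GATE-Z (S15) / node (F-SB) = GZ-F-SB, file 1 (helper7): **the `k`-uniform arithmetic of the count
and the REAL-COUNT, unified for all `r`** (Mathlib + `GZ/Dev` only).

* `pow_le_of_num_unip`   : `r^m · a = w`, `w ≤ r^C · a²` (NUM**), `w ≤ f²` (UNIP) ⟹ `r^m ≤ r^C · f`;
* `card_H1_le_of_count`  : the binders of `Dev.Marked.card_H1_mul_card_Wf_le_pow` + the three numeric
                           inputs + `#H~⁰ ≤ B`  ⟹  `#H~¹(𝒱) ≤ B · r^C`  (`B`, `C` independent of `k`);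
* `realMu F c i`         : `∃ w ∈ F (i+1), w ∉ F i ∧ w + c w = 0` (the piece `i` of the flag has
                           `L_∞ ≠ 0`: `ker (1 + c | F (i+1)) ⊄ F i`);
* `pow_card_realMu_mul`  : **REAL-COUNT** `r ^ #{i < n | realMu F c i} · #((1 + c) W) = #W` for a flag
                           with `#(F i) = r^i`, `r` prime (ANY `r`, including `2`);
* `realMu_of_neg`        : for `r` odd, `c² = 1`: a piece on which `c` acts as `-1` has `realMu`;
* `Marked.refine`        : intersecting `X` with a subgroup containing ALL cocycles does not shrink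
                           `H~¹` (`card_H1_le_refine`).
-/
import Mathlib
import Fermat.Agent.GZ.Dev.Count

set_option autoImplicit false

namespace Fermat.Agent.GZ.F.SB

open Fermat.Agent.GZ.Dev

/-! ### the arithmetic -/

/-- `r^m · a = w`, `w ≤ r^C · a²`, `w ≤ f²` ⟹ `r^m ≤ r^C · f`. -/
theorem pow_le_of_num_unip {r m a w f C : ℕ} (hr : 0 < r) (hw : 0 < w)
    (hμ : r ^ m * a = w) (hNUM : w ≤ r ^ C * a ^ 2) (hUNIP : w ≤ f ^ 2) :
    r ^ m ≤ r ^ C * f := by
  have ha : 0 < a := by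
    rcases Nat.eq_zero_or_pos a with h | h
    · rw [h, mul_zero] at hμ; omega
    · exact h
  have hrC : 1 ≤ r ^ C := Nat.one_le_pow _ _ hr
  -- `(r^m)² a² = w² ≤ w · r^C a²`
  have h1 : (r ^ m) ^ 2 * a ^ 2 ≤ (r ^ C * w) * a ^ 2 := by
    calc (r ^ m) ^ 2 * a ^ 2 = w * w := by rw [← hμ]; ring
      _ ≤ w * (r ^ C * a ^ 2) := Nat.mul_le_mul_left _ hNUM
      _ = (r ^ C * w) * a ^ 2 := by ring
  have h2 : (r ^ m) ^ 2 ≤ r ^ C * w := Nat.le_of_mul_le_mul_right h1 (by positivity)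
  have h3 : (r ^ m) ^ 2 ≤ (r ^ C * f) ^ 2 := by
    calc (r ^ m) ^ 2 ≤ r ^ C * w := h2
      _ ≤ r ^ C * f ^ 2 := Nat.mul_le_mul_left _ hUNIP
      _ ≤ r ^ C * (r ^ C * f ^ 2) := Nat.le_mul_of_pos_left _ hrC
      _ = (r ^ C * f) ^ 2 := by ring
  exact (Nat.pow_le_pow_iff_left (by norm_num : (2 : ℕ) ≠ 0)).mp h3

section Count

variable {G : Type*} [Group G] {D I : Subgroup G}
variable {W : Type*} [AddCommGroup W] [DistribMulAction G W]

/-- **the count, `k`-uniform form**: with `a := #((1 + c) V_k)`,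
`r ^ #{μ-pieces} · a = #V_k` (REAL-COUNT), `#V_k ≤ r^C a²` (NUM**), `#V_k ≤ (#V_k^I)²` (UNIP) and
`#H~⁰ ≤ B`:  `#H~¹(𝒱) ≤ B · r^C`. -/
theorem card_H1_le_of_count (𝒱 : Marked D I W) (hID : I ≤ D) [Finite W] (n : ℕ)
    (F : ℕ → StableSub G W) (h0 : (F 0).U = ⊥) (hn : (F n).U = ⊤)
    (hmono : ∀ i, i < n → (F i).U ≤ (F (i + 1)).U)
    (hSel : ∀ i, i < n → Finite (𝒱.piece (F i) (F (i + 1))).Sel) (r : ℕ) (hr : 0 < r)
    (μ : ℕ → Prop) [DecidablePred μ]
    (het : ∀ i, i < n → ¬ μ i → (𝒱.piece (F i) (F (i + 1))).tab ≤ 1)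
    (hmu : ∀ i, i < n → μ i → (𝒱.piece (F i) (F (i + 1))).tab ≤ r)
    (a C B : ℕ) (hμ : r ^ ((Finset.range n).filter μ).card * a = Nat.card W)
    (hNUM : Nat.card W ≤ r ^ C * a ^ 2) (hUNIP : Nat.card W ≤ Nat.card 𝒱.Wf ^ 2)
    (hH0 : Nat.card 𝒱.H0 ≤ B) :
    Finite 𝒱.H1 ∧ Nat.card 𝒱.H1 ≤ B * r ^ C := by
  obtain ⟨hfin, hle⟩ := 𝒱.card_H1_mul_card_Wf_le_pow hID n F h0 hn hmono hSel r μ het hmu
  refine ⟨hfin, ?_⟩
  have hpow := pow_le_of_num_unip hr (Nat.card_pos : 0 < Nat.card W) hμ hNUM hUNIP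
  have hWf : 0 < Nat.card 𝒱.Wf := Nat.card_pos
  have h1 : Nat.card 𝒱.H1 * Nat.card 𝒱.Wf ≤ (B * r ^ C) * Nat.card 𝒱.Wf := by
    calc Nat.card 𝒱.H1 * Nat.card 𝒱.Wf
        ≤ Nat.card 𝒱.H0 * r ^ ((Finset.range n).filter μ).card := hle
      _ ≤ B * (r ^ C * Nat.card 𝒱.Wf) := Nat.mul_le_mul hH0 hpow
      _ = (B * r ^ C) * Nat.card 𝒱.Wf := by ring
  exact Nat.le_of_mul_le_mul_right h1 hWf

end Count

/-! ### REAL-COUNT -/

section Real

variable {W : Type*} [AddCommGroup W]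

/-- the piece `F (i+1) / F i` has `L_∞ ≠ 0`: some `w ∈ F (i+1) ∖ F i` is killed by `1 + c`. -/
def realMu (F : ℕ → AddSubgroup W) (c : W →+ W) (i : ℕ) : Prop :=
  ∃ w ∈ F (i + 1), w ∉ F i ∧ w + c w = 0

/-- `1 + c`. -/
def onePlus (c : W →+ W) : W →+ W := AddMonoidHom.id W + c

@[simp] theorem onePlus_apply (c : W →+ W) (w : W) : onePlus c w = w + c w := rfl

/-- `#U = #f(U) · #(U ∩ ker f)`. -/
theorem card_eq_card_map_mul_card_inf_ker (U : AddSubgroup W) (f : W →+ W) :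
    Nat.card U = Nat.card (U.map f) * Nat.card (U ⊓ f.ker : AddSubgroup W) := by
  let g : U →+ W := f.comp U.subtype
  have h1 : Nat.card U = Nat.card g.ker * Nat.card g.range :=
    Fermat.Agent.GZ.Dev.card_eq_card_ker_mul_card_range g
  have h2 : g.range = U.map f := by
    ext y
    constructor
    · rintro ⟨u, rfl⟩
      exact ⟨(u : W), u.2, rfl⟩
    · rintro ⟨u, hu, rfl⟩
      exact ⟨⟨u, hu⟩, rfl⟩
  have h3 : Nat.card g.ker = Nat.card (U ⊓ f.ker : AddSubgroup W) := by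
    refine Nat.card_congr
      { toFun := fun u => ⟨((u : U) : W), (u : U).2, u.2⟩
        invFun := fun w => ⟨⟨(w : W), w.2.1⟩, w.2.2⟩
        left_inv := fun u => rfl
        right_inv := fun w => rfl }
  rw [h1, h2, h3, mul_comm]

variable [Finite W]

/-- one step of the REAL-COUNT. -/
theorem card_map_succ {r : ℕ} (hr : r.Prime) (F : ℕ → AddSubgroup W) (c : W →+ W) (i : ℕ)
    (hle : F i ≤ F (i + 1)) (hci : Nat.card (F i) = r ^ i) (hci1 : Nat.card (F (i + 1)) = r ^ (i + 1)) :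
    (realMu F c i → Nat.card ((F (i + 1)).map (onePlus c)) = Nat.card ((F i).map (onePlus c))) ∧
    (¬ realMu F c i →
      Nat.card ((F (i + 1)).map (onePlus c)) = r * Nat.card ((F i).map (onePlus c))) := by
  set f := onePlus c with hf
  have e0 := card_eq_card_map_mul_card_inf_ker (F i) f
  have e1 := card_eq_card_map_mul_card_inf_ker (F (i + 1)) f
  rw [hci] at e0
  rw [hci1] at e1
  have hK : (F i ⊓ f.ker : AddSubgroup W) ≤ F (i + 1) ⊓ f.ker := inf_le_inf_right _ hle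
  have hN : (F i).map f ≤ (F (i + 1)).map f := AddSubgroup.map_mono hle
  obtain ⟨x, hx⟩ := AddSubgroup.card_dvd_of_le hK
  obtain ⟨y, hy⟩ := AddSubgroup.card_dvd_of_le hN
  have hk0 : 0 < Nat.card (F i ⊓ f.ker : AddSubgroup W) := Nat.card_pos
  have hn0 : 0 < Nat.card ((F i).map f) := Nat.card_pos
  -- `x * y = r`
  have hxy : x * y = r := by
    have h1 : r ^ (i + 1) = (Nat.card ((F i).map f) * Nat.card (F i ⊓ f.ker : AddSubgroup W)) *
        (x * y) := by
      rw [e1, hx, hy]; ring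
    rw [← e0, pow_succ] at h1
    have hpos : 0 < r ^ i := pow_pos hr.pos i
    exact (Nat.eq_of_mul_eq_mul_left hpos h1).symm
  have hx1 : x = 1 ∨ x = r := (Nat.dvd_prime hr).mp ⟨y, hxy.symm⟩
  constructor
  · rintro ⟨w, hw1, hw0, hw⟩
    -- `K i ≠ K (i+1)`, so `x = r`, `y = 1`
    have hxne : x ≠ 1 := by
      intro hx1'
      rw [hx1', mul_one] at hx
      have heq : (F i ⊓ f.ker : AddSubgroup W) = F (i + 1) ⊓ f.ker :=
        AddSubgroup.eq_of_le_of_card_ge hK (le_of_eq hx)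
      have hmem : w ∈ (F (i + 1) ⊓ f.ker : AddSubgroup W) :=
        AddSubgroup.mem_inf.mpr ⟨hw1, AddMonoidHom.mem_ker.mpr (by rw [hf, onePlus_apply]; exact hw)⟩
      rw [← heq] at hmem
      exact hw0 (AddSubgroup.mem_inf.mp hmem).1
    have hxr : x = r := hx1.resolve_left hxne
    have hy1 : y = 1 := by
      rw [hxr] at hxy
      exact Nat.eq_of_mul_eq_mul_left hr.pos (by rw [hxy, mul_one])
    rw [hy, hy1, mul_one]
  · intro hnot
    -- `K (i+1) = K i`, so `x = 1`, `y = r`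
    have heq : (F (i + 1) ⊓ f.ker : AddSubgroup W) ≤ F i ⊓ f.ker := by
      intro w hw
      obtain ⟨hw1, hw2⟩ := AddSubgroup.mem_inf.mp hw
      refine AddSubgroup.mem_inf.mpr ⟨?_, hw2⟩
      by_contra hw0
      refine hnot ⟨w, hw1, hw0, ?_⟩
      have := AddMonoidHom.mem_ker.mp hw2
      rwa [hf, onePlus_apply] at this
    have hxe : x = 1 := by
      have h1 : Nat.card (F (i + 1) ⊓ f.ker : AddSubgroup W) =
          Nat.card (F i ⊓ f.ker : AddSubgroup W) := by
        rw [le_antisymm heq hK]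
      rw [h1] at hx
      exact (Nat.eq_of_mul_eq_mul_left hk0 (by rw [← hx, mul_one])).symm
    have hyr : y = r := by rw [hxe, one_mul] at hxy; exact hxy
    rw [hy, hyr, mul_comm]

/-- **REAL-COUNT**, unified for all `r`: for a flag `⊥ = F 0 ≤ … ≤ F n = ⊤` with `#(F i) = r^i`,
`r ^ #{i < n | realMu F c i} · #((1 + c) W) = #W`. -/
theorem pow_card_realMu_mul {r : ℕ} (hr : r.Prime) (n : ℕ) (F : ℕ → AddSubgroup W) (c : W →+ W)
    (h0 : F 0 = ⊥) (hn : F n = ⊤) (hmono : ∀ i, i < n → F i ≤ F (i + 1))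
    (hcard : ∀ i, i ≤ n → Nat.card (F i) = r ^ i) [DecidablePred (realMu F c)] :
    r ^ ((Finset.range n).filter (realMu F c)).card * Nat.card (onePlus c).range = Nat.card W := by
  have key : ∀ i, i ≤ n →
      r ^ ((Finset.range i).filter (realMu F c)).card * Nat.card ((F i).map (onePlus c)) = r ^ i := by
    intro i
    induction i with
    | zero =>
      intro _
      rw [h0, AddSubgroup.map_bot]
      simp
    | succ i ih =>
      intro hi
      have hi' : i < n := hi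
      have ih' := ih (le_of_lt hi')
      obtain ⟨h1, h2⟩ := card_map_succ hr F c i (hmono i hi') (hcard i (le_of_lt hi')) (hcard (i + 1) hi)
      rw [Finset.range_add_one, Finset.filter_insert]
      by_cases hμ : realMu F c i
      · rw [if_pos hμ, Finset.card_insert_of_notMem (by simp), h1 hμ, pow_succ, pow_succ, ← ih']
        ring
      · rw [if_neg hμ, h2 hμ, pow_succ, ← ih']
        ring
  have h := key n le_rfl
  rw [hn] at h
  have htop : ((⊤ : AddSubgroup W).map (onePlus c)) = (onePlus c).range :=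
    (AddMonoidHom.range_eq_map (onePlus c)).symm
  rw [htop] at h
  rw [h]
  have := hcard n le_rfl
  rw [hn] at this
  rw [← this]
  exact (Nat.card_congr (AddSubgroup.topEquiv (G := W)).toEquiv)

omit [Finite W] in
/-- for `r` odd and `c² = 1`: a piece on which `c` acts as `-1` has `realMu` (so a piece without
`realMu` is not of cyclotomic type). `hodd` : `2` is invertible on the piece. -/
theorem realMu_of_neg (F : ℕ → AddSubgroup W) (c : W →+ W) (i : ℕ)
    (hc2 : ∀ w, c (c w) = w) (hcF : ∀ w ∈ F (i + 1), c w ∈ F (i + 1))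
    (hneg : ∀ w ∈ F (i + 1), c w + w ∈ F i)
    (hodd : ∀ w ∈ F (i + 1), w + w ∈ F i → w ∈ F i) (hne : ∃ w ∈ F (i + 1), w ∉ F i) :
    realMu F c i := by
  obtain ⟨w, hw1, hw0⟩ := hne
  refine ⟨w - c w, (F (i + 1)).sub_mem hw1 (hcF w hw1), ?_, ?_⟩
  · intro hmem
    -- `w - c w = (w + w) - (c w + w)`
    have h1 : w + w ∈ F i := by
      have : w + w = (w - c w) + (c w + w) := by abel
      rw [this]
      exact (F i).add_mem hmem (hneg w hw1)
    exact hw0 (hodd w hw1 h1)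
  · rw [map_sub, hc2]
    abel

end Real

/-! ### refining the admissible cochains by a condition satisfied by all cocycles -/

section Refine

variable {G : Type*} [Group G] {D I : Subgroup G}
variable {W : Type*} [AddCommGroup W] [DistribMulAction G W]

/-- intersect `X` with a subgroup `Y` of cochains containing all coboundaries. -/
def refine (𝒱 : Marked D I W) (Y : AddSubgroup (G → W)) (hY : ∀ w : W, dCob G w ∈ Y) :
    Marked D I W where
  Wf := 𝒱.Wf
  smul_mem_Wf := 𝒱.smul_mem_Wf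
  smul_eq_of_mem_I := 𝒱.smul_eq_of_mem_I
  X := 𝒱.X ⊓ Y
  dCob_mem w := ⟨𝒱.dCob_mem w, hY w⟩

/-- if `Y` contains ALL cocycles of `𝒱.X`, refining by `Y` does not change `Z¹`. -/
theorem Z1_refine (𝒱 : Marked D I W) (Y : AddSubgroup (G → W)) (hY : ∀ w : W, dCob G w ∈ Y)
    (hcoc : ∀ x ∈ 𝒱.X, IsCocycle x → x ∈ Y) : (refine 𝒱 Y hY).Z1 = 𝒱.Z1 := by
  ext z
  constructor
  · rintro ⟨h1, h2, h3, h4, h5, h6⟩
    exact ⟨h1.1, h2, h3, h4, h5, h6⟩
  · rintro ⟨h1, h2, h3, h4, h5, h6⟩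
    exact ⟨⟨h1, hcoc _ h1 h2⟩, h2, h3, h4, h5, h6⟩

/-- **`#H~¹(𝒱) ≤ #H~¹(refine 𝒱 Y)`** when `Y` contains all cocycles of `𝒱.X` (in fact they are
isomorphic; only this direction is needed by the count). -/
theorem card_H1_le_refine (𝒱 : Marked D I W) (Y : AddSubgroup (G → W))
    (hY : ∀ w : W, dCob G w ∈ Y) (hcoc : ∀ x ∈ 𝒱.X, IsCocycle x → x ∈ Y)
    [Finite (refine 𝒱 Y hY).H1] :
    Finite 𝒱.H1 ∧ Nat.card 𝒱.H1 ≤ Nat.card (refine 𝒱 Y hY).H1 := by
  have hZ := Z1_refine 𝒱 Y hY hcoc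
  let φ : 𝒱.Z1 →+ (refine 𝒱 Y hY).Z1 :=
    { toFun := fun z => ⟨(z : (G → W) × (D → W) × W), by rw [hZ]; exact z.2⟩
      map_zero' := rfl
      map_add' := fun _ _ => rfl }
  have hle : 𝒱.d0.range ≤ ((refine 𝒱 Y hY).d0.range).comap φ := by
    rintro z ⟨a, rfl⟩
    exact ⟨(a.1, ⟨(a.2 : W), a.2.2⟩), Subtype.ext rfl⟩
  let ψ : 𝒱.H1 →+ (refine 𝒱 Y hY).H1 := QuotientAddGroup.map _ _ φ hle
  have hinj : Function.Injective ψ := by
    rw [injective_iff_map_eq_zero]
    intro q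
    induction q using QuotientAddGroup.induction_on with
    | H z =>
      intro hz
      have hz' : φ z ∈ (refine 𝒱 Y hY).d0.range := by
        have : ψ (QuotientAddGroup.mk z) = QuotientAddGroup.mk (φ z) := rfl
        rw [this] at hz
        exact (QuotientAddGroup.eq_zero_iff _).mp hz
      obtain ⟨a, ha⟩ := hz'
      refine (QuotientAddGroup.eq_zero_iff _).mpr ⟨(a.1, ⟨(a.2 : W), a.2.2⟩), ?_⟩
      apply Subtype.ext
      have := congrArg (fun z : (refine 𝒱 Y hY).Z1 => (z : (G → W) × (D → W) × W)) ha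
      exact this
  exact ⟨Finite.of_injective ψ hinj, Nat.card_le_card_of_injective ψ hinj⟩

end Refine

end Fermat.Agent.GZ.F.SB
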