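/-
GATE-Z (S15) / node (F), (SB): **the `k`-uniform bound `#H~⁰ ≤ B`** (helper94).

`H~⁰(𝒱) = W^{G_ℚ} ⊓ Wf` of a marked module on a Galois-stable TORSION subgroup `W ≤ J₀(p)(ℚ̄)`
(e.g. the Eisenstein part `V_k = eisPart p S r k`) embeds into the torsion of the Mordell–Weil group
`J₀(p)(ℚ)`, which is finite as soon as `J₀(p)(ℚ)` is finitely generated (S17).  So

  `∃ B > 0, ∀ W (stable, torsion), ∀ D I, ∀ 𝒱 : Marked D I W, Nat.card 𝒱.H0 ≤ B`

with `B := #J₀(p)(ℚ)_tors` — the `hH0` binder of the (SB) count, uniformly in `k`, `r`, `S`.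

* `finite_torsion_MW`      : `J₀(p)(ℚ)_tors` is finite;
* `torsMW`                 : the torsion rational points, as an `AddSubgroup (JZero p)`;
* `card_H0_le_card_torsMW` : `#H~⁰(𝒱) ≤ #torsMW` for every marking on a stable torsion subgroup;
* `exists_card_H0_le`      : the uniform statement;
* `card_H0_eisPart_le`     : the same on `↥(eisPart p S r k)` for ANY `DistribMulAction` whose
                             coercion to `JZero p` is equivariant (so it serves every spelling of the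
                             action on `V_k`).
-/
import Mathlib
import Fermat.Agent.GZ.F.Pin
import Fermat.Agent.GZ.Dev.Flag

set_option autoImplicit false
set_option linter.style.haveILetI false
set_option linter.unusedSectionVars false

noncomputable section

open AlgebraicCurve ModularCurve

namespace Fermat.Agent.GZ.F.SB.H0Bound

open Fermat.Agent.GZ.F Fermat.Agent.GZ.Dev

local notation "GQ" => (AlgebraicClosure ℚ ≃ₐ[ℚ] AlgebraicClosure ℚ)

variable (p : ℕ) [NeZero p]

/-- the torsion rational points of `J₀(p)`. -/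
def torsMW : AddSubgroup (JZero p) where
  carrier := {z | z ∈ MW p ∧ IsOfFinAddOrder z}
  zero_mem' := ⟨(MW p).zero_mem, IsOfFinAddOrder.zero⟩
  add_mem' := by
    rintro a b ⟨ha, ha'⟩ ⟨hb, hb'⟩
    exact ⟨(MW p).add_mem ha hb, ha'.add hb'⟩
  neg_mem' := by
    rintro a ⟨ha, ha'⟩
    exact ⟨(MW p).neg_mem ha, ha'.neg⟩

theorem mem_torsMW {z : JZero p} :
    z ∈ torsMW p ↔ (∀ σ : GQ, σ • z = z) ∧ IsOfFinAddOrder z := Iff.rfl

/-- **`J₀(p)(ℚ)_tors` is finite** (from Mordell–Weil). -/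
theorem finite_torsMW (hfg : AddGroup.FG ↥(MW p)) : Finite ↥(torsMW p) := by
  haveI : AddGroup.FG ↥(MW p) := hfg
  haveI : Module.Finite ℤ ↥(MW p) := Module.Finite.iff_addGroup_fg.mpr hfg
  -- the torsion submodule of `MW` is finite
  haveI : IsNoetherian ℤ ↥(MW p) := inferInstance
  have hfin : Module.Finite ℤ ↥(Submodule.torsion ℤ ↥(MW p)) :=
    Module.IsNoetherian.finite ℤ _
  have htors : Module.IsTorsion ℤ ↥(Submodule.torsion ℤ ↥(MW p)) :=
    Submodule.torsion_isTorsion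
  haveI : Finite ↥(Submodule.torsion ℤ ↥(MW p)) := Module.finite_of_fg_torsion _ htors
  -- embed
  have hmem : ∀ z : ↥(torsMW p), (⟨(z : JZero p), z.2.1⟩ : ↥(MW p)) ∈
      Submodule.torsion ℤ ↥(MW p) := by
    intro z
    obtain ⟨n, hn, hz⟩ := z.2.2.exists_nsmul_eq_zero
    rw [Submodule.mem_torsion_iff]
    refine ⟨⟨(n : ℤ), ?_⟩, ?_⟩
    · rw [mem_nonZeroDivisors_iff_ne_zero]
      exact_mod_cast hn.ne'
    · apply Subtype.ext
      show ((n : ℤ) • (⟨(z : JZero p), z.2.1⟩ : ↥(MW p)) : ↥(MW p)).1 = 0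
      rw [natCast_zsmul]
      exact hz
  let f : ↥(torsMW p) → ↥(Submodule.torsion ℤ ↥(MW p)) := fun z => ⟨⟨(z : JZero p), z.2.1⟩, hmem z⟩
  have hf : Function.Injective f := by
    intro a b hab
    apply Subtype.ext
    have := congrArg (fun t : ↥(Submodule.torsion ℤ ↥(MW p)) => ((t : ↥(MW p)) : JZero p)) hab
    exact this
  exact Finite.of_injective f hf

variable {p}

/-- `H~⁰` of a marking on a stable torsion subgroup embeds into the torsion rational points. -/
theorem card_H0_le_card_torsMW (hfg : AddGroup.FG ↥(MW p)) (T : StableSub GQ (JZero p))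
    (hT : ∀ x ∈ T.U, IsOfFinAddOrder x) {D I : Subgroup GQ} (𝒱 : Marked D I ↥T.U) :
    Nat.card ↥𝒱.H0 ≤ Nat.card ↥(torsMW p) := by
  haveI := finite_torsMW p hfg
  have hmem : ∀ w : ↥𝒱.H0, (((w : ↥T.U) : JZero p)) ∈ torsMW p := by
    intro w
    refine ⟨fun σ => ?_, hT _ (w : ↥T.U).2⟩
    have := congrArg (fun u : ↥T.U => (u : JZero p)) (w.2.2 σ)
    exact this
  let f : ↥𝒱.H0 → ↥(torsMW p) := fun w => ⟨((w : ↥T.U) : JZero p), hmem w⟩
  have hf : Function.Injective f := by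
    intro a b hab
    apply Subtype.ext
    apply Subtype.ext
    exact congrArg (fun t : ↥(torsMW p) => (t : JZero p)) hab
  exact Nat.card_le_card_of_injective f hf

/-- **the uniform `H~⁰` bound**: one `B` for all stable torsion subgroups and all markings. -/
theorem exists_card_H0_le (hfg : AddGroup.FG ↥(MW p)) :
    ∃ B : ℕ, 0 < B ∧ ∀ (T : StableSub GQ (JZero p)), (∀ x ∈ T.U, IsOfFinAddOrder x) →
      ∀ (D I : Subgroup GQ) (𝒱 : Marked D I ↥T.U), Nat.card ↥𝒱.H0 ≤ B := by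
  haveI := finite_torsMW p hfg
  refine ⟨Nat.card ↥(torsMW p), Nat.card_pos, fun T hT D I 𝒱 => ?_⟩
  exact card_H0_le_card_torsMW hfg T hT 𝒱

/-- elements of the Eisenstein part have finite order (`r ≠ 0`). -/
theorem isOfFinAddOrder_of_mem_eisPart {S : Finset ℕ} {r k : ℕ} (hr : r ≠ 0) {x : JZero p}
    (hx : x ∈ eisPart p S r k) : IsOfFinAddOrder x :=
  isOfFinAddOrder_iff_nsmul_eq_zero.mpr ⟨r ^ k, pow_pos (Nat.pos_of_ne_zero hr) k, hx.1⟩

/-- the `H~⁰` bound for ANY action on a torsion subgroup `U ≤ J₀(p)` whose inclusion is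
equivariant (no `StableSub` packaging needed). -/
theorem card_H0_le_of_equivariant (hfg : AddGroup.FG ↥(MW p)) (U : AddSubgroup (JZero p))
    (hU : ∀ x ∈ U, IsOfFinAddOrder x) [DistribMulAction GQ ↥U]
    (hcoe : ∀ (σ : GQ) (u : ↥U), ((σ • u : ↥U) : JZero p) = σ • (u : JZero p))
    {D I : Subgroup GQ} (𝒱 : Marked D I ↥U) :
    Nat.card ↥𝒱.H0 ≤ Nat.card ↥(torsMW p) := by
  haveI := finite_torsMW p hfg
  have hmem : ∀ w : ↥𝒱.H0, (((w : ↥U) : JZero p)) ∈ torsMW p := by
    intro w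
    refine ⟨fun σ => ?_, hU _ (w : ↥U).2⟩
    rw [← hcoe σ (w : ↥U), w.2.2 σ]
  let f : ↥𝒱.H0 → ↥(torsMW p) := fun w => ⟨((w : ↥U) : JZero p), hmem w⟩
  have hf : Function.Injective f := by
    intro a b hab
    apply Subtype.ext
    apply Subtype.ext
    exact congrArg (fun t : ↥(torsMW p) => (t : JZero p)) hab
  exact Nat.card_le_card_of_injective f hf

/-- **the `H~⁰` bound on the Eisenstein part**, for any equivariant spelling of the action. -/
theorem card_H0_eisPart_le (hfg : AddGroup.FG ↥(MW p)) (S : Finset ℕ) {r : ℕ} (hr : r ≠ 0) (k : ℕ)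
    [DistribMulAction GQ ↥(eisPart p S r k)]
    (hcoe : ∀ (σ : GQ) (u : ↥(eisPart p S r k)),
      ((σ • u : ↥(eisPart p S r k)) : JZero p) = σ • (u : JZero p))
    {D I : Subgroup GQ} (𝒱 : Marked D I ↥(eisPart p S r k)) :
    Nat.card ↥𝒱.H0 ≤ Nat.card ↥(torsMW p) :=
  card_H0_le_of_equivariant hfg _ (fun _ hx => isOfFinAddOrder_of_mem_eisPart hr hx) hcoe 𝒱

end Fermat.Agent.GZ.F.SB.H0Bound
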