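/-
GATE-Z / (F) / GZ-F-SB-LOCVAL (helper47; leaf offered by helper7 6125 §5): the LOCAL LEMMA of the
Kummer count.  `A' | l` a valuation subring of `ℚ̄`, `β ^ r = a ∈ ℚˣ`, `β` fixed by the inertia
group of `A'`  ⟹  `r ∣ v_l(a)`.

Proof: (U1) of GL/Local/InertiaField (value group of the inertia field is `ℤ·v(l)`) gives
`β = lⁿ · unit`; compare `|a|_{A'} = |l|^{n r}` with helper24's `valuation_ratCast`.
-/
import Mathlib
import Fermat.Agent.GL.Local.InertiaField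
import Fermat.Agent.GZ.Mod.ValBridge

set_option autoImplicit false

open Fermat.Agent.Common_helper32

namespace Fermat.Agent.GZ.F.SB

/-- value form: an element of `ℚ̄ˣ` fixed by the inertia group of `A' | l` has valuation an
integral power of `|l|`. -/
theorem exists_valuation_eq_zpow_of_inertia_fixed {l : ℕ} (hl : l.Prime)
    (A' : ValuationSubring Qb) (hA' : A'.LiesOverPrime l) (β : Qb) (hβ0 : β ≠ 0)
    (hfix : ∀ σ ∈ A'.inertiaSubgroupIn ℚ, σ β = β) :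
    ∃ n : ℤ, A'.valuation β = A'.valuation (l : Qb) ^ n := by
  obtain ⟨n, h1, h2⟩ :=
    Fermat.Agent.GL.Local.InertiaField.exists_zpow_unit_of_fixed A' hl hA' β hβ0 hfix
  refine ⟨n, ?_⟩
  have hl0 : (l : Qb) ≠ 0 := Nat.cast_ne_zero.mpr hl.ne_zero
  have hln : (l : Qb) ^ n ≠ 0 := zpow_ne_zero _ hl0
  have hu0 : β / (l : Qb) ^ n ≠ 0 := div_ne_zero hβ0 hln
  have hv1 : A'.valuation (β / (l : Qb) ^ n) ≤ 1 := (A'.valuation_le_one_iff _).mpr h1
  have hv2 : A'.valuation (β / (l : Qb) ^ n)⁻¹ ≤ 1 := (A'.valuation_le_one_iff _).mpr h2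
  have hv : A'.valuation (β / (l : Qb) ^ n) = 1 := by
    refine le_antisymm hv1 ?_
    rw [map_inv₀] at hv2
    have hne : A'.valuation (β / (l : Qb) ^ n) ≠ 0 := (Valuation.ne_zero_iff _).mpr hu0
    exact (inv_le_one₀ (zero_lt_iff.mpr hne)).mp hv2
  have hβ : β = (β / (l : Qb) ^ n) * (l : Qb) ^ n := by
    rw [div_mul_cancel₀ _ hln]
  rw [hβ, map_mul, hv, one_mul, map_zpow₀]

/-- **LOCVAL** (helper7 6125 §5 VERBATIM). -/
theorem dvd_padicValRat_of_inertia_fixed {l r : ℕ} (hl : l.Prime) (hr : r.Prime)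
    (A' : ValuationSubring Qb) (hA' : A'.LiesOverPrime l) (β : Qb) (a : ℚ) (ha : a ≠ 0)
    (hβ : β ^ r = (a : Qb)) (hfix : ∀ σ ∈ A'.inertiaSubgroupIn ℚ, σ β = β) :
    (r : ℤ) ∣ padicValRat l a := by
  have haQ : ((a : ℚ) : Qb) ≠ 0 := Rat.cast_ne_zero.mpr ha
  have hβ0 : β ≠ 0 := by
    rintro rfl
    rw [zero_pow hr.ne_zero] at hβ
    exact haQ hβ.symm
  obtain ⟨n, hn⟩ := exists_valuation_eq_zpow_of_inertia_fixed hl A' hA' β hβ0 hfix
  have h1 : A'.valuation ((a : ℚ) : Qb) = A'.valuation (l : Qb) ^ (n * (r : ℤ)) := by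
    rw [← hβ, map_pow, hn, zpow_mul, zpow_natCast]
  have h2 := Fermat.Agent.GZ.Mod.ValBridge.valuation_ratCast (A := A') hl hA' ha
  rw [h1] at h2
  have hinj := zpow_right_injective₀ (Fermat.Agent.GZ.Mod.ValBridge.valuation_prime_pos (A := A') hl)
    (Fermat.Agent.GZ.Mod.ValBridge.valuation_prime_lt_one hA').ne
  have h3 : n * (r : ℤ) = padicValRat l a := hinj h2
  exact ⟨n, by rw [← h3, mul_comm]⟩

end Fermat.Agent.GZ.F.SB
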