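/-
GATE-Z (S15) / node (F-SB) = GZ-F-SB, file (W2) (helper7): **the Selmer bound on the Eisenstein part
`V_k = eisPart p S r k`**, hypothesis form: `Dev.Marked.sb_bound` (helper90) instantiated on the
Kolchin flag of `V_k` (helper36 `Const/EisPart.exists_flag_eisPart`) with (UNIP) of helper10.

* `PieceHyps 𝒱 r χ c` : the three per-piece arithmetic inputs, quantified over ALL rank-one
  `G`-stable subquotients `S/T` of `W`:
    `et`  (`r` odd, trivial action)          : `Finite Sel ∧ tab = 1`   (`Dev.Arith.tab_eq_one_of_mink`);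
    `mu`  (`r` odd, action through `χ`)      : `Dev.Arith.CobHyp`        (helper94 `cobHyp_of_mu`);
    `two` (`r = 2`, trivial action)          : `Dev.Arith.RealHyp · c`   (helper94 `realHyp_of_two`).
* `sb_of_pieceHyps`  : ANY finite `G`-module `W` with a flag whose pieces have order `r` and character
  `1` or `χ`, `χ c = -1`, `𝒱.X ≤ realX c`, (UNIP), (NUM**):  `#H~¹(𝒱)² ≤ #H~⁰(𝒱)² · r^C`.
* `card_eisPart_le_card_Wf_sq` : (UNIP) for a marking of `V_k` with `V_k^{I_A} ⊆ Wf`, binder-free.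
* `selBound_eisPart` : the same on `V_k` for ANY marking `𝒱` with `V_k^{I_A} ⊆ Wf`; the flag and (UNIP)
  are discharged; binders left = `PieceHyps`, (NUM**), `𝒱.X ≤ realX c`.
* `selBound_eisPart_le` : `#H~¹(𝒱) ≤ B · r^C` from `#H~⁰(𝒱) ≤ B`.
-/
import Mathlib
import Fermat.Agent.GZ.Dev.Arith.Hyp
import Fermat.Agent.GZ.Const.EisPart
import Fermat.Agent.GZ.Unip.JZero

set_option autoImplicit false

namespace Fermat.Agent.GZ.F.SB

open Fermat.Agent.GZ.Dev Fermat.Agent.GZ.Dev.Arith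

/-! ### abstract form -/

section Abstract

variable {G : Type*} [Group G] {D I : Subgroup G}
variable {W : Type*} [AddCommGroup W] [DistribMulAction G W]

/-- **the per-piece arithmetic inputs of the count**, for all rank-one stable subquotients. -/
structure PieceHyps (𝒱 : Marked D I W) (r : ℕ) (χ : G →* (ZMod r)ˣ) (c : G) : Prop where
  /-- `r` odd, trivial action: Minkowski line. -/
  et : r ≠ 2 → ∀ T S : StableSub G W, T.U ≤ S.U → Nat.card (↥S.U ⧸ (T.sub S).U) = r →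
    (∀ (σ : G) (q : ↥S.U ⧸ (T.sub S).U), σ • q = q) →
      Finite (𝒱.piece T S).Sel ∧ (𝒱.piece T S).tab = 1
  /-- `r` odd, action through `χ`: Kummer line. -/
  mu : r ≠ 2 → ∀ T S : StableSub G W, T.U ≤ S.U → Nat.card (↥S.U ⧸ (T.sub S).U) = r →
    (∀ (σ : G) (a : ℤ), (a : ZMod r) = ((χ σ : (ZMod r)ˣ) : ZMod r) →
      ∀ q : ↥S.U ⧸ (T.sub S).U, σ • q = a • q) →
      CobHyp (𝒱.piece T S)
  /-- `r = 2`: every piece, real-place line. -/
  two : r = 2 → ∀ T S : StableSub G W, T.U ≤ S.U → Nat.card (↥S.U ⧸ (T.sub S).U) = r →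
    (∀ (σ : G) (q : ↥S.U ⧸ (T.sub S).U), σ • q = q) → RealHyp (𝒱.piece T S) c

/-- every unit of `ZMod 2` is `1`. -/
theorem zmod_two_unit_eq_one (u : (ZMod 2)ˣ) : ((u : (ZMod 2)ˣ) : ZMod 2) = 1 := by
  revert u; decide

/-- in a group of odd order `r`, every element is a double. -/
theorem exists_double_of_card_odd {P : Type*} [AddCommGroup P] {r : ℕ} (hcard : Nat.card P = r)
    (hodd : Odd r) (q : P) : ∃ q' : P, q' + q' = q := by
  obtain ⟨m, hm⟩ := hodd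
  refine ⟨(m + 1) • q, ?_⟩
  have h0 : r • q = 0 := by rw [← hcard]; exact card_nsmul_eq_zero'
  rw [← add_nsmul]
  have : m + 1 + (m + 1) = r + 1 := by omega
  rw [this, add_nsmul, h0, zero_add, one_nsmul]

/-- **(SB), abstract**: flag with pieces of order `r` and character `1` or `χ` + per-piece arithmetic
+ (UNIP) + (NUM**). -/
theorem sb_of_pieceHyps (𝒱 : Marked D I W) (hID : I ≤ D) [Finite W] {r : ℕ} [hrp : Fact r.Prime]
    (χ : G →* (ZMod r)ˣ) (c : G) (hc : c * c = 1)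
    (hχc : ((χ c : (ZMod r)ˣ) : ZMod r) = -1) (hX : 𝒱.X ≤ realX c) (h : PieceHyps 𝒱 r χ c)
    (d : ℕ) (F : ℕ → StableSub G W) (h0 : (F 0).U = ⊥) (hd : (F d).U = ⊤)
    (hmono : ∀ i, i < d → (F i).U ≤ (F (i + 1)).U)
    (hcard : ∀ i, i ≤ d → Nat.card (F i).U = r ^ i)
    (hchar : ∀ i, i < d → ∃ ψ : G →* (ZMod r)ˣ, (ψ = 1 ∨ ψ = χ) ∧
      ∀ (σ : G) (a : ℤ), (a : ZMod r) = ((ψ σ : (ZMod r)ˣ) : ZMod r) →
        ∀ w ∈ (F (i + 1)).U, σ • w - a • w ∈ (F i).U)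
    (C : ℕ) (hunip : Nat.card W ≤ Nat.card 𝒱.Wf ^ 2)
    (hnum : Nat.card W ≤ r ^ C * Nat.card (onePlus c : W →+ W).range ^ 2) :
    Finite 𝒱.H1 ∧ Nat.card 𝒱.H1 ^ 2 ≤ Nat.card 𝒱.H0 ^ 2 * r ^ C := by
  have hr : r.Prime := hrp.out
  -- the per-piece statement
  have hpiece : ∀ i, i < d → Finite (𝒱.piece (F i) (F (i + 1))).Sel ∧
      (𝒱.piece (F i) (F (i + 1))).tab ≤
        (Nat.card (pieceSub (onePlus c : W →+ W).ker (F i) (F (i + 1))) : ℚ) := by
    intro i hi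
    obtain ⟨ψ, hψ, hact⟩ := hchar i hi
    have hcp : Nat.card (↥(F (i + 1)).U ⧸ ((F i).sub (F (i + 1))).U) = r :=
      Fermat.Agent.GZ.Const.FlagDev.card_piece (F i) (F (i + 1)) (hmono i hi)
        (hcard i (le_of_lt hi)) (hcard (i + 1) hi) hr.pos
    have hsm : ∀ (σ : G) (a : ℤ), (a : ZMod r) = ((ψ σ : (ZMod r)ˣ) : ZMod r) →
        ∀ q : ↥(F (i + 1)).U ⧸ ((F i).sub (F (i + 1))).U, σ • q = a • q :=
      fun σ a ha q =>
        Fermat.Agent.GZ.Const.FlagDev.smul_piece (F i) (F (i + 1)) σ a (hact σ a ha) q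
    by_cases h2 : r = 2
    · -- `r = 2`: trivial action, real-place line
      have htriv : ∀ (σ : G) (q : ↥(F (i + 1)).U ⧸ ((F i).sub (F (i + 1))).U), σ • q = q := by
        intro σ q
        have h1 : ((1 : ℤ) : ZMod r) = ((ψ σ : (ZMod r)ˣ) : ZMod r) := by
          subst h2
          rw [zmod_two_unit_eq_one, Int.cast_one]
        rw [hsm σ 1 h1 q, one_zsmul]
      exact piece_hT_of_realHyp 𝒱 hX (F i) (F (i + 1)) htriv
        (h.two h2 (F i) (F (i + 1)) (hmono i hi) hcp htriv)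
    · rcases hψ with rfl | rfl
      · -- trivial character: Minkowski line
        have htriv : ∀ (σ : G) (q : ↥(F (i + 1)).U ⧸ ((F i).sub (F (i + 1))).U), σ • q = q := by
          intro σ q
          have h1 : ((1 : ℤ) : ZMod r) = (((1 : G →* (ZMod r)ˣ) σ : (ZMod r)ˣ) : ZMod r) := by
            rw [MonoidHom.one_apply, Units.val_one, Int.cast_one]
          rw [hsm σ 1 h1 q, one_zsmul]
        exact piece_hT_of_tab_eq_one 𝒱 c (F i) (F (i + 1))
          (h.et h2 (F i) (F (i + 1)) (hmono i hi) hcp htriv)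
      · -- character `χ`: Kummer line
        have hneg : ∀ q : ↥(F (i + 1)).U ⧸ ((F i).sub (F (i + 1))).U, c • q = -q := by
          intro q
          have h1 : ((-1 : ℤ) : ZMod r) = ((ψ c : (ZMod r)ˣ) : ZMod r) := by
            rw [hχc, Int.cast_neg, Int.cast_one]
          rw [hsm c (-1) h1 q, neg_zsmul, one_zsmul]
        have hodd : Odd r := hr.odd_of_ne_two h2
        exact piece_hT_of_cobHyp 𝒱 hc (F i) (F (i + 1)) hneg
          (exists_double_of_card_odd hcp hodd)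
          (h.mu h2 (F i) (F (i + 1)) (hmono i hi) hcp hsm)
  exact 𝒱.sb_bound hID c d F h0 hd hmono (fun i hi => (hpiece i hi).1)
    (fun i hi => (hpiece i hi).2) r C hunip hnum

/-- from the squared form to the bound `#H~¹ ≤ B · r^C`. -/
theorem le_of_sq_le {h z r C B : ℕ} (hr : 0 < r) (hsq : h ^ 2 ≤ z ^ 2 * r ^ C) (hz : z ≤ B) :
    h ≤ B * r ^ C := by
  have h1 : h ^ 2 ≤ (B * r ^ C) ^ 2 := by
    calc h ^ 2 ≤ z ^ 2 * r ^ C := hsq
      _ ≤ B ^ 2 * r ^ C := Nat.mul_le_mul_right _ (Nat.pow_le_pow_left hz 2)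
      _ ≤ B ^ 2 * (r ^ C * r ^ C) :=
          Nat.mul_le_mul_left _ (Nat.le_mul_of_pos_left _ (Nat.pow_pos hr))
      _ = (B * r ^ C) ^ 2 := by ring
  exact (Nat.pow_le_pow_iff_left (by norm_num : (2 : ℕ) ≠ 0)).mp h1

end Abstract

/-! ### the Eisenstein part -/

section Eis

open AlgebraicCurve ModularCurve
open Fermat.Agent.GZ.F Fermat.Agent.GZ.Const.EisPart Fermat.Agent.GJ.CycChar

local notation "Qb" => AlgebraicClosure ℚ
local notation "GQ" => (AlgebraicClosure ℚ ≃ₐ[ℚ] AlgebraicClosure ℚ)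

variable (p : ℕ) [NeZero p] (hp : p.Prime) (S : Finset ℕ) (r k : ℕ) (hr : r ≠ 0)

/-- the inertia group lies in the decomposition group. -/
theorem inertiaIn_le_decomp (A : ValuationSubring Qb) :
    A.inertiaSubgroupIn ℚ ≤ A.decompositionSubgroup ℚ := by
  rintro σ ⟨t, -, rfl⟩
  exact t.2

/-- **(UNIP) on `V_k`** for a marking with `V_k^{I_A} ⊆ Wf` (`A ∣ p`, `r ≠ p`), binder-free. -/
theorem card_eisPart_le_card_Wf_sq [Fact r.Prime] (hrp : r ≠ p) (A : ValuationSubring Qb)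
    (hA : A.LiesOverPrime p)
    (𝒱 : Marked (A.decompositionSubgroup ℚ) (A.inertiaSubgroupIn ℚ) ↥(eisSub p hp S r k hr).U)
    (hWf : ∀ w : ↥(eisSub p hp S r k hr).U, (∀ τ ∈ A.inertiaSubgroupIn ℚ, τ • w = w) → w ∈ 𝒱.Wf) :
    Nat.card ↥(eisSub p hp S r k hr).U ≤ Nat.card 𝒱.Wf ^ 2 := by
  have hp2 : ¬ p ^ 2 ∣ p := by
    intro h
    have h1 : p ^ 2 ≤ p := Nat.le_of_dvd hp.pos h
    nlinarith [hp.two_le]
  have h1 : Nat.card ↥(eisPart p S r k) ≤
      Nat.card ↥(eisPart p S r k ⊓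
        Fermat.Agent.GZ.Unip.Abs.inv (A.inertiaSubgroupIn ℚ) (JZero p)) ^ 2 :=
    Fermat.Agent.GZ.Unip.JZ.card_le_card_inf_inv_sq p hp (dvd_refl p) hp2 A hA r hrp k
      (eisPart p S r k) (fun σ w hw => smul_mem_eisPart hp hr σ hw)
      (fun w hw => by rw [natCast_zsmul]; exact hw.1)
  -- `V_k ⊓ J^{I_A} ↪ Wf`
  have h2 : Nat.card ↥(eisPart p S r k ⊓
      Fermat.Agent.GZ.Unip.Abs.inv (A.inertiaSubgroupIn ℚ) (JZero p)) ≤ Nat.card 𝒱.Wf := by
    let f : ↥(eisPart p S r k ⊓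
        Fermat.Agent.GZ.Unip.Abs.inv (A.inertiaSubgroupIn ℚ) (JZero p)) → 𝒱.Wf := fun x =>
      ⟨⟨(x : JZero p), x.2.1⟩, hWf _ (fun τ hτ => Subtype.ext (x.2.2 τ hτ))⟩
    have hf : Function.Injective f := by
      intro x y hxy
      apply Subtype.ext
      have := congrArg (fun z : 𝒱.Wf => ((z : ↥(eisSub p hp S r k hr).U) : JZero p)) hxy
      exact this
    exact Nat.card_le_card_of_injective f hf
  calc Nat.card ↥(eisSub p hp S r k hr).U = Nat.card ↥(eisPart p S r k) := rfl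
    _ ≤ _ := h1
    _ ≤ Nat.card 𝒱.Wf ^ 2 := Nat.pow_le_pow_left h2 2

/-- **(SB) on the Eisenstein part `V_k`**, hypothesis form: ANY marking `𝒱` of `V_k` with
`V_k^{I_A} ⊆ Wf` and `X ≤ realX c`; the Kolchin flag (helper36) and (UNIP) (helper10) are
discharged; binders = the per-piece arithmetic `PieceHyps` and (NUM**). -/
theorem selBound_eisPart [Fact r.Prime] (hrp : r ≠ p) (A : ValuationSubring Qb)
    (hA : A.LiesOverPrime p)
    (𝒱 : Marked (A.decompositionSubgroup ℚ) (A.inertiaSubgroupIn ℚ) ↥(eisSub p hp S r k hr).U)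
    (hWf : ∀ w : ↥(eisSub p hp S r k hr).U, (∀ τ ∈ A.inertiaSubgroupIn ℚ, τ • w = w) → w ∈ 𝒱.Wf)
    (c : GQ) (hc : c * c = 1) (hcyc : ((cyc r c : (ZMod r)ˣ) : ZMod r) = -1)
    (hX : 𝒱.X ≤ realX c) (h : PieceHyps 𝒱 r (cyc r) c) (C : ℕ)
    (hnum : Nat.card ↥(eisSub p hp S r k hr).U ≤
      r ^ C * Nat.card (onePlus c : ↥(eisSub p hp S r k hr).U →+ _).range ^ 2) :
    Finite 𝒱.H1 ∧ Nat.card 𝒱.H1 ^ 2 ≤ Nat.card 𝒱.H0 ^ 2 * r ^ C := by
  obtain ⟨d, -, F, h0, hd, hmono, hcard, hchar⟩ := exists_flag_eisPart p hp S r k hr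
  exact sb_of_pieceHyps 𝒱 (inertiaIn_le_decomp A) (cyc r) c hc hcyc hX h d F h0 hd hmono hcard
    hchar C (card_eisPart_le_card_Wf_sq p hp S r k hr hrp A hA 𝒱 hWf) hnum

/-- **(SB) on `V_k`, final shape**: `#H~¹(𝒱) ≤ B · r^C` when `#H~⁰(𝒱) ≤ B`. -/
theorem selBound_eisPart_le [Fact r.Prime] (hrp : r ≠ p) (A : ValuationSubring Qb)
    (hA : A.LiesOverPrime p)
    (𝒱 : Marked (A.decompositionSubgroup ℚ) (A.inertiaSubgroupIn ℚ) ↥(eisSub p hp S r k hr).U)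
    (hWf : ∀ w : ↥(eisSub p hp S r k hr).U, (∀ τ ∈ A.inertiaSubgroupIn ℚ, τ • w = w) → w ∈ 𝒱.Wf)
    (c : GQ) (hc : c * c = 1) (hcyc : ((cyc r c : (ZMod r)ˣ) : ZMod r) = -1)
    (hX : 𝒱.X ≤ realX c) (h : PieceHyps 𝒱 r (cyc r) c) (C : ℕ)
    (hnum : Nat.card ↥(eisSub p hp S r k hr).U ≤
      r ^ C * Nat.card (onePlus c : ↥(eisSub p hp S r k hr).U →+ _).range ^ 2)
    (B : ℕ) (hH0 : Nat.card 𝒱.H0 ≤ B) :
    Finite 𝒱.H1 ∧ Nat.card 𝒱.H1 ≤ B * r ^ C := by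
  obtain ⟨hfin, hsq⟩ := selBound_eisPart p hp S r k hr hrp A hA 𝒱 hWf c hc hcyc hX h C hnum
  exact ⟨hfin, le_of_sq_le (Nat.pos_of_ne_zero hr) hsq hH0⟩

end Eis

end Fermat.Agent.GZ.F.SB
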