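/-
GATE-Z (S15) / node (F-SB) = GZ-F-SB, WIRING (helper7): **the per-piece arithmetic `PieceHyps`
from the conditions on the admissible cochains**.

`W` a finite `G_ℚ`-module, `𝒱 : Dev.Marked D I W`, `I ⊇ I_A` for one `A ∣ p`, `p ≠ r`.  If every
`x ∈ 𝒱.X` is
* level-constant (`hXsm`, first clause of `Kum/Plug.Xur`),
* unramified at one place above every prime `l ∉ {r, p}` (`hXur`, second clause of `Xur`),
* flat at `r` for a stable order `HW` of `W` over `ℤ_(r)` (`hXflat : 𝒱.X ≤ flatX hW`, LOC-r),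
then `PieceHyps 𝒱 r (cyc r) c₀` holds for every `c₀` with `c₀ √-1 = -√-1`:

* `et`  : Minkowski (`Dev.Arith.tab_eq_one_of_mink`) + helper5 `flat_apply_eq_zero_of_trivial_Q`;
* `mu`  : helper36 `exists_character` ⟹ `MuChar`; helper94 `Smooth.exists_h90` ⟹ `H90`; `MuLoc` from
          `Xur` (`l ∉ {r,p}`), `SelZ` (`l = p`), helper5 `muLoc_clause_odd` (`l = r`); then helper90
          `cobHyp_of_mu`;
* `two` : the same with `muLoc_clause_two` and `realHyp_of_mu`.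
-/
import Mathlib
import Fermat.Agent.GZ.F.SB.SelBound
import Fermat.Agent.GZ.Dev.Arith.Mink
import Fermat.Agent.GZ.Dev.Arith.Mu
import Fermat.Agent.GZ.Arith.Smooth
import Fermat.Agent.GZ.Const.PiecePlug
import Fermat.Agent.GZ.LocR.PieceTypeMu
import Fermat.Agent.GZ.LocR.FlatSub.Piece

set_option autoImplicit false
set_option linter.unusedSectionVars false

namespace Fermat.Agent.GZ.F.SB

open Fermat.Agent.Common_helper32
open Fermat.Agent.GZ.Dev Fermat.Agent.GZ.Dev.Arith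
open Fermat.Agent.GZ.Const.PiecePlug Fermat.Agent.GJ.CycChar
open Fermat.Agent.GZ.LocR.FlatSub Fermat.Agent.GZ.LocR.ConstOrd Fermat.Agent.GH.N0
  Fermat.Agent.GS.ClosureW

/-! ### a generic marked piece -/

section Piece

variable {D I : Subgroup GQ} {P : Type*} [AddCommGroup P] [DistribMulAction GQ P]

/-- the level-constancy clause of `Kum/Plug.Xur`. -/
def LevelConst (x : GQ → P) : Prop :=
  ∃ U : Subgroup GQ, IsOpen (U : Set GQ) ∧ ∀ g : GQ, ∀ s ∈ U, x (g * s) = x g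

/-- a level-constant cochain has an open zero set. -/
theorem isOpen_zeroSet_of_levelConst {x : GQ → P} (hsm : LevelConst x) :
    IsOpen {σ : GQ | x σ = 0} := by
  obtain ⟨U, hU, hxU⟩ := hsm
  rw [isOpen_iff_forall_mem_open]
  intro σ hσ
  refine ⟨(fun s => σ * s) '' (U : Set GQ), ?_, isOpenMap_mul_left σ _ hU,
    ⟨1, U.one_mem, mul_one σ⟩⟩
  rintro _ ⟨s, hs, rfl⟩
  show x (σ * s) = 0
  rw [hxU σ s hs]
  exact hσ

theorem cocycle_one {x : GQ → P} (hcoc : IsCocycle x) : x 1 = 0 := by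
  have h := hcoc 1 1
  rw [one_mul, one_smul] at h
  have h' : x 1 + 0 = x 1 + x 1 := by rw [add_zero]; exact h
  exact (add_left_cancel h').symm

/-- **Hilbert 90 datum** of a level-constant cocycle (helper94 `Smooth.exists_h90`). -/
theorem h90_of_levelConst {r : ℕ} (Ψ : MuChar P r) {x : GQ → P} (hcoc : IsCocycle x)
    (hsm : LevelConst x) : H90 Ψ x := by
  obtain ⟨U, hU, hxU⟩ := hsm
  have hx1 := cocycle_one hcoc
  obtain ⟨β, hβ0, hβ⟩ := Fermat.Agent.GZ.Arith.exists_h90 (fun σ => Ψ.ψ (x σ))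
    (fun σ => Ψ.ne_zero _)
    (fun σ τ => by
      show Ψ.ψ (x (σ * τ)) = Ψ.ψ (x σ) * σ (Ψ.ψ (x τ))
      rw [hcoc σ τ, Ψ.map_add, Ψ.equivariant])
    U hU
    (fun σ hσ => by
      show Ψ.ψ (x σ) = 1
      have := hxU 1 σ hσ
      rw [one_mul, hx1] at this
      rw [this, Ψ.map_zero])
  exact ⟨β, hβ0, hβ⟩

/-- **`MuLoc`** for a plain Selmer cocycle: `l = p` from the Selmer condition, `l ∉ {r, p}` from
unramifiedness, `l = r` from LOC-r. -/
theorem muLoc_of_selZ {r p : ℕ} (Ψ : MuChar P r) (𝒲 : Marked D I P)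
    (hI : ∃ A : ValuationSubring Qb, A.LiesOverPrime p ∧ A.inertiaSubgroupIn ℚ ≤ I)
    {x : GQ → P} (hx : x ∈ 𝒲.SelZ)
    (hur : ∀ l : ℕ, l.Prime → l ≠ r → l ≠ p →
      ∃ A : ValuationSubring Qb, A.LiesOverPrime l ∧ ∀ σ ∈ A.inertiaSubgroupIn ℚ, x σ = 0)
    (hr : ∃ V : ValuationSubring Qb, V.LiesOverPrime r ∧
      ((∃ w₀ : P, ∀ σ ∈ V.inertiaSubgroupIn ℚ, x σ = σ • w₀ - w₀) ∨
        (∀ β : Qb, β ≠ 0 → (∀ σ : GQ, Ψ.ψ (x σ) * β = σ β) →
          ∃ c : ℚ, c ≠ 0 ∧ (((c : ℚ) : Qb) * β) ^ r ∈ V ∧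
            ((((c : ℚ) : Qb) * β) ^ r)⁻¹ ∈ V))) :
    MuLoc Ψ x := by
  intro l hl
  by_cases hlp : l = p
  · obtain ⟨A, hA, hAI⟩ := hI
    obtain ⟨w₀, hw₀⟩ := exists_coboundary_on_I 𝒲 hx
    exact ⟨A, hlp ▸ hA, Or.inl ⟨w₀, fun σ hσ => hw₀ σ (hAI hσ)⟩⟩
  · by_cases hlr : l = r
    · obtain ⟨V, hV, h⟩ := hr
      exact ⟨V, hlr ▸ hV, by subst hlr; exact h⟩
    · obtain ⟨A, hA, h0⟩ := hur l hl hlr hlp
      exact ⟨A, hA, Or.inl ⟨0, fun σ hσ => by rw [h0 σ hσ, smul_zero, sub_zero]⟩⟩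

/-- **the `MuChar`** of a piece of order `r` on which `G_ℚ` acts through `cyc r`
(helper36 `exists_character`). -/
theorem exists_muChar [Finite P] {r : ℕ} [hrF : Fact r.Prime] (hcard : Nat.card P = r)
    (h : ActsThrough r (cyc r) P) : Nonempty (MuChar P r) := by
  obtain ⟨χ, m₀, -, hχ, hinj⟩ := exists_character hcard h
  have hr0 : ∀ w : P, r • w = 0 := fun w => by rw [← hcard]; exact card_nsmul_eq_zero'
  refine ⟨MuChar.ofCard hrF.out.pos hcard (fun w => χ (Multiplicative.ofAdd w))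
    (fun u v => by rw [ofAdd_add, map_mul])
    (fun u v huv => Multiplicative.ofAdd.injective (hinj huv))
    (fun σ w => hχ σ w)
    (fun w => by rw [← map_pow, ← ofAdd_nsmul, hr0 w, ofAdd_zero, map_one])⟩

/-- a module of order `2` with trivial action is of "cyclotomic type" (`cyc 2 = 1`). -/
theorem actsThrough_two [Finite P] (hcard : Nat.card P = 2)
    (htriv : ∀ (σ : GQ) (q : P), σ • q = q)
    [Fact (Nat.Prime 2)] : ActsThrough 2 (cyc 2) P := by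
  intro σ a ha q
  rw [htriv σ q]
  have h2 : (2 : ℕ) • q = 0 := by rw [← hcard]; exact card_nsmul_eq_zero'
  rw [zmod_two_unit_eq_one] at ha
  obtain ⟨m, rfl⟩ := ZMod.intCast_eq_one_iff_odd.mp ha
  rw [add_zsmul, one_zsmul, mul_zsmul']
  have : (2 : ℤ) • q = 0 := by
    have := h2
    rwa [← natCast_zsmul, Nat.cast_ofNat] at this
  rw [this, zsmul_zero, zero_add]

end Piece

/-! ### the pieces of a marked module -/

section Wire

variable {D I : Subgroup GQ} {W : Type*} [AddCommGroup W] [DistribMulAction GQ W]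

theorem piece_levelConst (𝒱 : Marked D I W) (hXsm : ∀ x ∈ 𝒱.X, LevelConst x)
    (T S : StableSub GQ W) {y : GQ → ↥S.U ⧸ (T.sub S).U} (hy : y ∈ (𝒱.piece T S).X) :
    LevelConst y := by
  obtain ⟨x, hx, rfl⟩ := (𝒱.mem_piece_X T S y).mp hy
  obtain ⟨U, hU, hxU⟩ := hXsm _ hx
  refine ⟨U, hU, fun g s hs => ?_⟩
  show (QuotientAddGroup.mk (x (g * s)) : ↥S.U ⧸ (T.sub S).U) = QuotientAddGroup.mk (x g)
  congr 1
  exact Subtype.ext (hxU g s hs)

theorem piece_unramified (𝒱 : Marked D I W) {r p : ℕ}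
    (hXur : ∀ x ∈ 𝒱.X, ∀ l : ℕ, l.Prime → l ≠ r → l ≠ p →
      ∃ A : ValuationSubring Qb, A.LiesOverPrime l ∧ ∀ σ ∈ A.inertiaSubgroupIn ℚ, x σ = 0)
    (T S : StableSub GQ W) {y : GQ → ↥S.U ⧸ (T.sub S).U} (hy : y ∈ (𝒱.piece T S).X)
    (l : ℕ) (hl : l.Prime) (hlr : l ≠ r) (hlp : l ≠ p) :
    ∃ A : ValuationSubring Qb, A.LiesOverPrime l ∧ ∀ σ ∈ A.inertiaSubgroupIn ℚ, y σ = 0 := by
  obtain ⟨x, hx, rfl⟩ := (𝒱.mem_piece_X T S y).mp hy
  obtain ⟨A, hA, h0⟩ := hXur _ hx l hl hlr hlp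
  refine ⟨A, hA, fun σ hσ => ?_⟩
  show (QuotientAddGroup.mk (x σ) : ↥S.U ⧸ (T.sub S).U) = 0
  have : x σ = 0 := Subtype.ext (h0 σ hσ)
  rw [this]
  rfl

variable [Finite W]

/-- **WIRING**: the per-piece arithmetic from level-constancy, unramifiedness outside `{r, p}` and
flatness at `r` of the admissible cochains. -/
theorem pieceHyps_of_flat (𝒱 : Marked D I W) {r : ℕ} [hrF : Fact r.Prime] {p : ℕ}
    (hI : ∃ A : ValuationSubring Qb, A.LiesOverPrime p ∧ A.inertiaSubgroupIn ℚ ≤ I)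
    (hXsm : ∀ x ∈ 𝒱.X, LevelConst x)
    (hXur : ∀ x ∈ 𝒱.X, ∀ l : ℕ, l.Prime → l ≠ r → l ≠ p →
      ∃ A : ValuationSubring Qb, A.LiesOverPrime l ∧ ∀ σ ∈ A.inertiaSubgroupIn ℚ, x σ = 0)
    {HW : Subalgebra (GaloisRep.ratLocalizedAt r) (W → Qb)}
    (hW : IsStableOrder ℚ (smulAct GQ W) HW) (hXflat : 𝒱.X ≤ flatX hW)
    (c₀ : GQ) (i₀ : Qb) (hi : i₀ ^ 2 = -1) (hc : c₀ i₀ = -i₀) :
    PieceHyps 𝒱 r (cyc r) c₀ := by
  have hr : r.Prime := hrF.out
  obtain ⟨V, hV⟩ := exists_liesOverPrime r hr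
  -- flatness of the admissible cochains of a piece
  have hflat : ∀ (T S : StableSub GQ W) {y : GQ → ↥S.U ⧸ (T.sub S).U},
      y ∈ (𝒱.piece T S).X →
        IsFlat (smulAct GQ (↥S.U ⧸ (T.sub S).U)) (pieceOrder HW T S) y := fun T S y hy =>
    (mem_flatX (isStableOrder_piece hW T S)).mp (piece_X_le_flatX 𝒱 hW hXflat T S hy)
  refine ⟨?_, ?_, ?_⟩
  · -- étale line
    intro hodd T S _ hcard htriv
    refine tab_eq_one_of_mink (𝒱.piece T S) htriv p hI
      (fun y hy _ => isOpen_zeroSet_of_levelConst (piece_levelConst 𝒱 hXsm T S hy))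
      (fun y hy _ l hl hlp => ?_)
    by_cases hlr : l = r
    · subst hlr
      exact ⟨V, hV, fun σ hσ => flat_apply_eq_zero_of_trivial_Q V hV (isStableOrder_piece hW T S)
        hodd hcard (fun σ w => htriv σ w) (hflat T S hy) hσ⟩
    · exact piece_unramified 𝒱 hXur T S hy l hl hlr hlp
  · -- Kummer line, `r` odd
    intro hodd T S _ hcard hact
    obtain ⟨Ψ⟩ := exists_muChar hcard hact
    refine cobHyp_of_mu (𝒱.piece T S) Ψ (hr.odd_of_ne_two hodd)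
      (fun x hx => h90_of_levelConst Ψ hx.2.1 (piece_levelConst 𝒱 hXsm T S hx.1))
      (fun x hx => muLoc_of_selZ Ψ (𝒱.piece T S) hI hx
        (fun l hl hlr hlp => piece_unramified 𝒱 hXur T S hx.1 l hl hlr hlp)
        ⟨V, hV, Or.inr (muLoc_clause_odd hodd Ψ V hV (isStableOrder_piece hW T S) hcard
          (hflat T S hx.1))⟩)
  · -- `r = 2`
    intro h2 T S _ hcard htriv
    subst h2
    obtain ⟨Ψ⟩ := exists_muChar hcard (actsThrough_two hcard htriv)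
    refine realHyp_of_mu (𝒱.piece T S) Ψ
      (fun x hx => h90_of_levelConst Ψ hx.2.1 (piece_levelConst 𝒱 hXsm T S hx.1))
      (fun x hx => muLoc_of_selZ Ψ (𝒱.piece T S) hI hx
        (fun l hl hlr hlp => piece_unramified 𝒱 hXur T S hx.1 l hl hlr hlp)
        ⟨V, hV, muLoc_clause_two Ψ V hV (isStableOrder_piece hW T S) hcard (hflat T S hx.1)⟩)
      c₀ i₀ hi hc

end Wire

end Fermat.Agent.GZ.F.SB
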