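/-
GATE-Z (S15) / node (F-SB) = GZ-F-SB, MAIN (helper7): **the Selmer bound on `V_k = eisPart p S r k`,
uniform in `k`**.

For ANY marking `𝒱` of `V_k` (relative to `D_A`, `I_A`, `A ∣ p`, `p ≥ 5` prime, `r ≠ p` prime) with
* `hWf`    : `V_k^{I_A} ⊆ 𝒱.Wf`,
* `hXsm`   : the admissible cochains are level-constant,
* `hXur`   : … and unramified at one place above every prime `l ∉ {r, p}`,
* `hXflat` : … and flat at `r` for a stable order `HW` of `V_k` over `ℤ_(r)` (LOC-r),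
* `hXreal` : … and satisfy the real condition `x c + c • x c = 0`, `c` = complex conjugation,
and with (NUM**) `#V_k ≤ r^C · #((1 + c) V_k)²`:

  `#H~¹(𝒱) ≤ #(J₀(p)(ℚ)_tors) · r^C`      (`selBound_eisPart_of_flat`),

and, with (NUM**) discharged by helper10 (`GZ/Num/Plug.hnum_eisSub`, `C = 6 g`):

  `#H~¹(𝒱) ≤ sbConst p r := #(J₀(p)(ℚ)_tors) · r^(6g)`      (`selBound_eisPart_final`).

Everything else is discharged: the Kolchin flag (helper36), (UNIP) (helper10), the count (helper90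
`sb_bound`), Minkowski/Kummer over `ℚ` (helper90, helper94, helper47), the local shapes at `r`
(helper5, helper94, helper14), `#H~⁰ ≤ #J₀(p)(ℚ)_tors` (S17 + helper94 `H0Bound`).
-/
import Mathlib
import Fermat.Agent.GZ.F.SB.PieceWire
import Fermat.Agent.S17
import Fermat.Agent.GZ.F.SB.H0Bound
import Fermat.Agent.GZ.Num.Plug

set_option autoImplicit false
set_option linter.unusedSectionVars false

namespace Fermat.Agent.GZ.F.SB

open AlgebraicCurve ModularCurve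
open Fermat.Agent.Common_helper32
open Fermat.Agent.GZ.Dev Fermat.Agent.GZ.Dev.Arith
open Fermat.Agent.GZ.F Fermat.Agent.GZ.Const.EisPart Fermat.Agent.GZ.Const.PiecePlug
open Fermat.Agent.GJ.CycChar
open Fermat.Agent.GZ.LocR.FlatSub Fermat.Agent.GH.N0 Fermat.Agent.GS.ClosureW

/-! ### the square root of `-1` -/

/-- a square root of `-1` in `ℚ̄`, negated by complex conjugation. -/
theorem exists_sqrt_neg_one :
    ∃ i₀ : Qb, i₀ ^ 2 = -1 ∧ complexConjugation i₀ = -i₀ := by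
  obtain ⟨i₀, hi⟩ := IsAlgClosed.exists_pow_nat_eq (-1 : Qb) (by norm_num : 0 < 2)
  refine ⟨i₀, hi, ?_⟩
  have h4 : i₀ ^ 4 = 1 := by
    have : i₀ ^ 4 = (i₀ ^ 2) ^ 2 := by ring
    rw [this, hi]; norm_num
  have h1 := Fermat.Agent.GJ.Cyc.complexConjugation_rootOfUnity 4 (by norm_num) i₀ h4
  rw [h1]
  apply inv_eq_of_mul_eq_one_left
  have : -i₀ * i₀ = -(i₀ ^ 2) := by ring
  rw [this, hi, neg_neg]

/-! ### the main theorem -/

section Main

variable (p : ℕ) [NeZero p] (hp : p.Prime) (S : Finset ℕ) (r k : ℕ) (hr : r ≠ 0)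

/-- **(F-SB) on the Eisenstein part, all arithmetic discharged, (NUM**) as a binder.**  Binders
left: the marking (`hWf`, `hXsm`, `hXur`, `hXflat` with its order `HW`, `hXreal`) and (NUM**). -/
theorem selBound_eisPart_of_flat (hp5 : 5 ≤ p) [hrF : Fact r.Prime] (hrp : r ≠ p)
    (A : ValuationSubring Qb) (hA : A.LiesOverPrime p)
    (𝒱 : Marked (A.decompositionSubgroup ℚ) (A.inertiaSubgroupIn ℚ) ↥(eisSub p hp S r k hr).U)
    (hWf : ∀ w : ↥(eisSub p hp S r k hr).U, (∀ τ ∈ A.inertiaSubgroupIn ℚ, τ • w = w) → w ∈ 𝒱.Wf)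
    (hXsm : ∀ x ∈ 𝒱.X, LevelConst x)
    (hXur : ∀ x ∈ 𝒱.X, ∀ l : ℕ, l.Prime → l ≠ r → l ≠ p →
      ∃ A' : ValuationSubring Qb, A'.LiesOverPrime l ∧ ∀ σ ∈ A'.inertiaSubgroupIn ℚ, x σ = 0)
    {HW : Subalgebra (GaloisRep.ratLocalizedAt r) (↥(eisSub p hp S r k hr).U → Qb)}
    (hW : IsStableOrder ℚ (smulAct GQ ↥(eisSub p hp S r k hr).U) HW)
    (hXflat : 𝒱.X ≤ flatX hW)
    (hXreal : 𝒱.X ≤ realX complexConjugation) (C : ℕ)
    (hnum : Nat.card ↥(eisSub p hp S r k hr).U ≤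
      r ^ C * Nat.card (onePlus complexConjugation :
        ↥(eisSub p hp S r k hr).U →+ _).range ^ 2) :
    Finite 𝒱.H1 ∧ Nat.card 𝒱.H1 ≤ Nat.card ↥(H0Bound.torsMW p) * r ^ C := by
  obtain ⟨i₀, hi, hc⟩ := exists_sqrt_neg_one
  have hfg : AddGroup.FG ↥(MW p) := Fermat.Agent.S17.result p hp hp5
  have := H0Bound.finite_torsMW p hfg
  have hpieces : PieceHyps 𝒱 r (cyc r) complexConjugation :=
    pieceHyps_of_flat 𝒱 ⟨A, hA, le_refl _⟩ hXsm hXur hW hXflat complexConjugation i₀ hi hc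
  exact selBound_eisPart_le p hp S r k hr hrp A hA 𝒱 hWf complexConjugation
    complexConjugation_mul_self (cyc_complexConjugation r) hXreal hpieces C hnum _
    (H0Bound.card_H0_le_card_torsMW hfg (eisSub p hp S r k hr)
      (fun _ hx => H0Bound.isOfFinAddOrder_of_mem_eisPart hr hx) 𝒱)

/-- the `k`-uniform constant of (F-SB): `#J₀(p)(ℚ)_tors · r^(6g)`. -/
noncomputable def sbConst : ℕ :=
  Nat.card ↥(H0Bound.torsMW p) * r ^ (6 * Module.finrank ℂ (CuspForm (CongruenceSubgroup.Gamma0 p) 2))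

/-- **(F-SB) on the Eisenstein part, (NUM**) discharged (helper10 `hnum_eisSub`).**  The bound
`sbConst p r` does not depend on `k`, `S`, `A`, nor the marking.  Binders left: the marking
(`hWf`, `hXsm`, `hXur`, `hXflat` with its order `HW`, `hXreal`). -/
theorem selBound_eisPart_final (hp5 : 5 ≤ p) [hrF : Fact r.Prime] (hrp : r ≠ p)
    (A : ValuationSubring Qb) (hA : A.LiesOverPrime p)
    (𝒱 : Marked (A.decompositionSubgroup ℚ) (A.inertiaSubgroupIn ℚ) ↥(eisSub p hp S r k hr).U)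
    (hWf : ∀ w : ↥(eisSub p hp S r k hr).U, (∀ τ ∈ A.inertiaSubgroupIn ℚ, τ • w = w) → w ∈ 𝒱.Wf)
    (hXsm : ∀ x ∈ 𝒱.X, LevelConst x)
    (hXur : ∀ x ∈ 𝒱.X, ∀ l : ℕ, l.Prime → l ≠ r → l ≠ p →
      ∃ A' : ValuationSubring Qb, A'.LiesOverPrime l ∧ ∀ σ ∈ A'.inertiaSubgroupIn ℚ, x σ = 0)
    {HW : Subalgebra (GaloisRep.ratLocalizedAt r) (↥(eisSub p hp S r k hr).U → Qb)}
    (hW : IsStableOrder ℚ (smulAct GQ ↥(eisSub p hp S r k hr).U) HW)
    (hXflat : 𝒱.X ≤ flatX hW)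
    (hXreal : 𝒱.X ≤ realX complexConjugation) :
    Finite 𝒱.H1 ∧ Nat.card 𝒱.H1 ≤ sbConst p r :=
  selBound_eisPart_of_flat p hp S r k hr hp5 hrp A hA 𝒱 hWf hXsm hXur hW hXflat hXreal _
    (Fermat.Agent.GZ.Num.Plug.hnum_eisSub p hp S r k hr)

end Main

end Fermat.Agent.GZ.F.SB
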